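import Fermat.Agent.S25.DefsDict

/-!
# Row S25, bridge AS9: `Stmt.Charts` from the dictionary and `Stmt.AlgCharts` (formal)

Also two small GDC facts used by the bridge: `GlueDatum.IsIso` is reflexive, and `IsBC` can be
transported along an isomorphism of the target.
-/

set_option autoImplicit false
universe u
open CategoryTheory CategoryTheory.Limits AlgebraicGeometry AlgebraicGeometry.RelPicard
  NeronModelInfra GoodReductionJacobian
open scoped TensorProduct

namespace Fermat.Agent.S25.H25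

/-- Post-composing a semilinear base-change map with a linear equivalence of the target gives a
semilinear base-change map. -/
theorem isSemilinearBaseChange_equiv_comp {R R' : Type u} [CommRing R] [CommRing R']
    (ρ : R →+* R') {N N' N'' : Type u} [AddCommGroup N] [Module R N] [AddCommGroup N']
    [Module R' N'] [AddCommGroup N''] [Module R' N''] (b : N →ₛₗ[ρ] N') (e : N' ≃ₗ[R'] N'')
    (hb : IsSemilinearBaseChange ρ b) :
    IsSemilinearBaseChange ρ ((e : N' →ₗ[R'] N'').comp b) := by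
  unfold IsSemilinearBaseChange at hb ⊢
  let : Algebra R R' := ρ.toAlgebra
  let : Module R N' := Module.compHom N' ρ
  let : Module R N'' := Module.compHom N'' ρ
  have : IsScalarTower R R' N' := ⟨fun r r' n => by
    change (ρ r * r') • n = ρ r • (r' • n); rw [mul_smul]⟩
  have : IsScalarTower R R' N'' := ⟨fun r r' n => by
    change (ρ r * r') • n = ρ r • (r' • n); rw [mul_smul]⟩
  exact IsBaseChange.comp hb (IsBaseChange.ofEquiv e)

section GDC

variable {A R₀ R₁ R₀₁ : Type u} [CommRing A] [CommRing R₀] [CommRing R₁]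
    [CommRing R₀₁] [Algebra A R₀] [Algebra A R₁] [Algebra A R₀₁] [Algebra R₀ R₀₁]
    [Algebra R₁ R₀₁] [IsScalarTower A R₀ R₀₁] [IsScalarTower A R₁ R₀₁]
    {A' R₀' R₁' R₀₁' : Type u} [CommRing A'] [CommRing R₀'] [CommRing R₁']
    [CommRing R₀₁'] [Algebra A' R₀'] [Algebra A' R₁'] [Algebra A' R₀₁'] [Algebra R₀' R₀₁']
    [Algebra R₁' R₀₁'] [IsScalarTower A' R₀' R₀₁'] [IsScalarTower A' R₁' R₀₁']

/-- Isomorphism of gluing data is reflexive. -/
theorem glueDatum_isIso_refl (G : GlueDatum A R₀ R₁ R₀₁) : G.IsIso G :=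
  ⟨{ e₀ := LinearEquiv.refl _ _
     e₁ := LinearEquiv.refl _ _
     e₀₁ := LinearEquiv.refl _ _
     comm₀ := fun _ => rfl
     comm₁ := fun _ => rfl }⟩

/-- A base change can be transported along an isomorphism of the target. -/
theorem glueDatum_isBC_of_isIso (ρ₀ : R₀ →+* R₀') (ρ₁ : R₁ →+* R₁') (ρ₀₁ : R₀₁ →+* R₀₁')
    (G : GlueDatum A R₀ R₁ R₀₁) (G' G'' : GlueDatum A' R₀' R₁' R₀₁')
    (h : GlueDatum.IsBC ρ₀ ρ₁ ρ₀₁ G G') (hiso : G'.IsIso G'') :
    GlueDatum.IsBC ρ₀ ρ₁ ρ₀₁ G G'' := by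
  obtain ⟨m⟩ := h
  obtain ⟨i⟩ := hiso
  exact ⟨{ b₀ := (i.e₀ : G'.N₀ →ₗ[R₀'] G''.N₀).comp m.b₀
           b₁ := (i.e₁ : G'.N₁ →ₗ[R₁'] G''.N₁).comp m.b₁
           b₀₁ := (i.e₀₁ : G'.N₀₁ →ₗ[R₀₁'] G''.N₀₁).comp m.b₀₁
           comm₀ := fun s => by
             simp only [LinearMap.comp_apply, LinearEquiv.coe_coe, m.comm₀, i.comm₀]
           comm₁ := fun s => by
             simp only [LinearMap.comp_apply, LinearEquiv.coe_coe, m.comm₁, i.comm₁]
           isBaseChange₀ := isSemilinearBaseChange_equiv_comp ρ₀ m.b₀ i.e₀ m.isBaseChange₀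
           isBaseChange₁ := isSemilinearBaseChange_equiv_comp ρ₁ m.b₁ i.e₁ m.isBaseChange₁
           isBaseChange₀₁ :=
             isSemilinearBaseChange_equiv_comp ρ₀₁ m.b₀₁ i.e₀₁ m.isBaseChange₀₁ }⟩

end GDC

variable {k : Type u} [Field k] {C : Scheme.{u}} {c : C ⟶ Spec (CommRingCat.of k)}
  {ε : SchemeHomOver (𝟙 (Spec (CommRingCat.of k))) c}

/-- The chart family of rigidified line bundles attached to an algebraic chart family via the
dictionary. -/
noncomputable def chartFamilyOfAlg (Ch : ChartOf c ε) (hSec : Stmt.DictSections Ch)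
    (hGlue : Stmt.DictGlue Ch) (hIso : Stmt.DictIso Ch) (hBC : Stmt.DictBC Ch)
    (hDeg : Stmt.DictDeg Ch) (hEx : Stmt.AlgBCExists Ch)
    (F : AlgChartFamily k Ch.B₀ Ch.B₁ Ch.B₀₁ Ch.e) : ChartFamily c ε where
  ι := F.ι
  R := F.R
  finiteType := F.finiteType
  bundle := fun i => (hGlue (F.R i) (F.datum i) (F.rig i)).choose
  deg0 := fun i =>
    (hDeg (F.R i) _ (F.datum i) (hGlue (F.R i) (F.datum i) (F.rig i)).choose_spec).2 (F.deg0 i)
  inj := by
    intro i A _ _ φ ψ hφψ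
    have hcorr := (hGlue (F.R i) (F.datum i) (F.rig i)).choose_spec
    obtain ⟨Gφ, hGφ⟩ := hEx (F.R i) A φ (F.datum i)
    obtain ⟨Gψ, hGψ⟩ := hEx (F.R i) A ψ (F.datum i)
    have h1 := hBC (F.R i) A φ _ (F.datum i) Gφ hcorr hGφ
    have h2 := hBC (F.R i) A ψ _ (F.datum i) Gψ hcorr hGψ
    exact F.inj i A φ ψ Gφ Gψ hGφ hGψ ((hIso A _ _ Gφ Gψ h1 h2).1 hφψ)
  locus := by
    intro A _ _ M hM
    obtain ⟨G, hG, hrig⟩ := hSec A M
    obtain ⟨I, hI, hloc⟩ := F.locus A G hrig ((hDeg A M G hG).1 hM)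
    refine ⟨I, hI, ?_⟩
    intro i A' _ _ ψ
    obtain ⟨G', hG'⟩ := hEx A A' ψ G
    have hcorr' := hBC A A' ψ M G G' hG hG'
    have hcorr := (hGlue (F.R i) (F.datum i) (F.rig i)).choose_spec
    rw [← hloc i A' ψ G' hG']
    constructor
    · rintro ⟨φ, hφ⟩
      obtain ⟨G'', hG''⟩ := hEx (F.R i) A' φ (F.datum i)
      have h1 := hBC (F.R i) A' φ _ (F.datum i) G'' hcorr hG''
      have h2 : G''.IsIso G' := (hIso A' _ _ G'' G' h1 hcorr').1 hφ
      exact ⟨φ, glueDatum_isBC_of_isIso _ _ _ (F.datum i) G'' G' hG'' h2⟩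
    · rintro ⟨φ, hφ⟩
      have h1 := hBC (F.R i) A' φ _ (F.datum i) G' hcorr hφ
      exact ⟨φ, (hIso A' _ _ G' G' h1 hcorr').2 (glueDatum_isIso_refl G')⟩

/-- AS9: `Charts` follows formally from a chart of the curve, the dictionary, existence of
base changes and `AlgCharts`. -/
theorem charts_of_alg (Ch : ChartOf c ε) (hSec : Stmt.DictSections Ch)
    (hGlue : Stmt.DictGlue Ch) (hIso : Stmt.DictIso Ch) (hBC : Stmt.DictBC Ch)
    (hDeg : Stmt.DictDeg Ch) (hEx : Stmt.AlgBCExists Ch)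
    (hCh : Stmt.AlgCharts k Ch.B₀ Ch.B₁ Ch.B₀₁) : Stmt.Charts c ε := by
  obtain ⟨F⟩ := hCh Ch.x Ch.y Ch.e Ch.isCurveChart
  exact ⟨chartFamilyOfAlg Ch hSec hGlue hIso hBC hDeg hEx F⟩

end Fermat.Agent.S25.H25
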